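import Fermat.Agent.H41.AtkinLehnerBar
import Fermat.Agent.H3.SSTwistCore

/-!
# P-SS2 row 1057 (SS2-J7a), independence of powers (helper84)

Let `q` be a prime, `N = N₀ q^a` with `q ∤ N₀`.

* `nlv_exists_atkinLehner` : the Atkin–Lehner automorphism `W` of `F_M`, `M = N' ℓ'`,
  `gcd(N', ℓ') = 1`: `W j(t^(d e)) = j(t^(d e'))` for `d ∣ N'`, `e e' = ℓ'`.
* `nlv_alpha_indep` : the powers `e^i`, `i < q`, of `e = j(t^(q^(a+1))) ∈ F_{N q}` are linearly
  independent over `α(F_N)`: apply `W = W_{q^(a+1)}`; it maps `α(F_N)` into `ℚ̄((t^q))` and `e` to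
  `j(t)`, of order `-1`.
* `nlv_beta_indep` : the powers `j^i`, `i < q`, are linearly independent over `β(F_N)`.
-/

set_option autoImplicit false
set_option linter.style.haveILetI false
set_option synthInstance.maxHeartbeats 400000

noncomputable section

namespace Fermat.Agent.H84.SS2

open AlgebraicCurve ModularCurve IntermediateField

local notation "Qb" => AlgebraicClosure ℚ

/-- Independence of `q` powers of a series of order prime to `q` over `ℚ̄((t^q))`. -/
theorem nlv_series_indep (q : ℕ) [NeZero q] (hq : q.Prime) (u : LaurentSeries Qb)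
    (hu : u.coeff (-1) ≠ 0) (s : Fin q → LaurentSeries Qb)
    (h : ∑ i : Fin q, qExpand Qb q (s i) * u ^ (i : ℕ) = 0) : ∀ i, s i = 0 := by
  have hm : ¬ ((q : ℕ) : ℤ) ∣ (-1 : ℤ) := by
    intro hd
    have h1 : ((q : ℕ) : ℤ) ∣ 1 := (Int.dvd_neg).1 hd
    have h2 : q ∣ 1 := Int.natCast_dvd_natCast.1 (by simpa using h1)
    exact hq.one_lt.ne' (Nat.dvd_one.1 h2)
  exact Fermat.Agent.H3.SSTwist.pow_independent q hq hm hu s h

/-- The coefficient of `t^(-1)` of `j` is nonzero. -/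
theorem nlv_coeff_j : (coeffEmb Qb jq).coeff (-1) ≠ 0 := by
  rw [coeffEmb_coeff, coeff_jq_neg_one, map_one]
  exact one_ne_zero

/-- **Atkin–Lehner** for a coprime decomposition `M = N' ℓ'` of the level. -/
theorem nlv_exists_atkinLehner (M N' ℓ' : ℕ) [NeZero M] [NeZero N'] [NeZero ℓ']
    (hM : M = N' * ℓ') (hcop : Nat.Coprime N' ℓ') :
    ∃ W : ↥(modularFunctionFieldBar M) ≃ₐ[Qb] ↥(modularFunctionFieldBar M),
      ∀ (d e e' : ℕ) (_ : NeZero (d * e)) (_ : NeZero (d * e')) (_ : d ∣ N') (_ : e * e' = ℓ')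
        (h1 : d * e ∣ M) (h2 : d * e' ∣ M),
        W (Fermat.Agent.H23.jBarD M (d * e) h1) = Fermat.Agent.H23.jBarD M (d * e') h2 := by
  subst hM
  obtain ⟨ι, Θ, hinj, -, hconst, hjd, hfrac⟩ := Fermat.Agent.H44.core (N' * ℓ')
  exact Fermat.Agent.H41.exists_atkinLehner_abstract hcop
    (fun d _ hd => Fermat.Agent.H23.jBarD (N' * ℓ') d hd) (Fermat.Agent.H23.Rsub (N' * ℓ')) rfl
    Θ ι hinj hconst hjd hfrac

section Range

variable (N q : ℕ) [NeZero N] [NeZero q]

/-- `qExpand` fixes the constants. -/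
theorem nlv_qExpand_algebraMap (c : Qb) :
    qExpand Qb q (algebraMap Qb (LaurentSeries Qb) c) = algebraMap Qb (LaurentSeries Qb) c := by
  rw [algebraMap_laurentSeries_eq_single, qExpand_single, mul_zero]

/-- If a ring homomorphism `ψ : F_N → ℚ̄((t))` (compatible with constants) maps the generators
`j(t^d)`, `d ∣ N`, into `ℚ̄((t^q))`, it maps `F_N` into `ℚ̄((t^q))`. -/
theorem nlv_range_of_gens (ψ : ↥(modularFunctionFieldBar N) →+* LaurentSeries Qb)
    (hc : ∀ c : Qb, ψ (algebraMap Qb ↥(modularFunctionFieldBar N) c)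
      = algebraMap Qb (LaurentSeries Qb) c)
    (hg : ∀ (d : ℕ) (_ : NeZero d) (hd : d ∣ N),
      ∃ s : LaurentSeries Qb, qExpand Qb q s = ψ (Fermat.Agent.H23.jBarD N d hd))
    (f : ↥(modularFunctionFieldBar N)) :
    ∃ s : LaurentSeries Qb, qExpand Qb q s = ψ f := by
  obtain ⟨-, -, -, -, -, -, hfrac⟩ := Fermat.Agent.H44.core N
  have hR : ∀ x : ↥(modularFunctionFieldBar N), x ∈ Fermat.Agent.H23.Rsub N →
      ∃ s : LaurentSeries Qb, qExpand Qb q s = ψ x := by
    intro x hx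
    unfold Fermat.Agent.H23.Rsub at hx
    induction hx using Algebra.adjoin_induction with
    | mem x hx =>
      obtain ⟨d, hd0, hd, rfl⟩ := hx
      exact hg d hd0 hd
    | algebraMap c => exact ⟨algebraMap Qb (LaurentSeries Qb) c, by
        rw [nlv_qExpand_algebraMap, hc]⟩
    | add x y _ _ hx hy =>
      obtain ⟨sx, hsx⟩ := hx
      obtain ⟨sy, hsy⟩ := hy
      exact ⟨sx + sy, by rw [map_add, map_add, hsx, hsy]⟩
    | mul x y _ _ hx hy =>
      obtain ⟨sx, hsx⟩ := hx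
      obtain ⟨sy, hsy⟩ := hy
      exact ⟨sx * sy, by rw [map_mul, map_mul, hsx, hsy]⟩
  obtain ⟨r, s, hs, hfs⟩ := hfrac f
  obtain ⟨sr, hsr⟩ := hR r r.2
  obtain ⟨ss, hss⟩ := hR s s.2
  have hs' : (s : ↥(modularFunctionFieldBar N)) ≠ 0 := fun h => hs (Subtype.ext h)
  have hf : f = (r : ↥(modularFunctionFieldBar N)) * (s : ↥(modularFunctionFieldBar N))⁻¹ := by
    rw [← hfs, mul_assoc, mul_inv_cancel₀ hs', mul_one]
  refine ⟨sr * ss⁻¹, ?_⟩
  rw [hf, map_mul, map_mul, map_inv₀, map_inv₀, hsr, hss]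

end Range

section Alpha

variable (N q : ℕ) [NeZero N] [NeZero q]

/-- **Independence of powers over `α(F_N)`**: for `N = N₀ q^a`, `q ∤ N₀`, the powers `e^i`,
`i < q`, of `e = j(t^(q^(a+1)))` are independent over `α(F_N)` in `F_{N q}`. -/
theorem nlv_alpha_indep (hq : q.Prime) (N₀ a : ℕ) (hN : N = N₀ * q ^ a) (hN₀ : ¬ q ∣ N₀)
    [NeZero (q ^ (a + 1))] (hdiv : q ^ (a + 1) ∣ N * q)
    (c : Fin q → ↥(modularFunctionFieldBar N))
    (h : ∑ i : Fin q, heckeAlphaBar Qb N q (c i)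
      * (Fermat.Agent.H23.jBarD (N * q) (q ^ (a + 1)) hdiv) ^ (i : ℕ) = 0) :
    ∀ i, c i = 0 := by
  have hN0 : N₀ ≠ 0 := by
    rintro rfl
    exact NeZero.ne N (by rw [hN, zero_mul])
  haveI : NeZero N₀ := ⟨hN0⟩
  have hq0 : q ≠ 0 := NeZero.ne q
  have hM : N * q = N₀ * q ^ (a + 1) := by rw [hN, pow_succ, mul_assoc]
  have hcop1 : Nat.Coprime N₀ q := ((Nat.Prime.coprime_iff_not_dvd hq).2 hN₀).symm
  have hcop : Nat.Coprime N₀ (q ^ (a + 1)) := Nat.Coprime.pow_right _ hcop1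
  have hcopa : Nat.Coprime N₀ (q ^ a) := Nat.Coprime.pow_right _ hcop1
  obtain ⟨W, hW⟩ := nlv_exists_atkinLehner (N * q) N₀ (q ^ (a + 1)) hM hcop
  -- the image of the generator
  have hWe : ((W (Fermat.Agent.H23.jBarD (N * q) (q ^ (a + 1)) hdiv) :
      ↥(modularFunctionFieldBar (N * q))) : LaurentSeries Qb) = coeffEmb Qb jq := by
    haveI i1 : NeZero (1 * q ^ (a + 1)) := ⟨by rw [one_mul]; exact NeZero.ne _⟩
    haveI i2 : NeZero (1 * 1) := ⟨by norm_num⟩
    have h1 : 1 * q ^ (a + 1) ∣ N * q := by rw [one_mul]; exact hdiv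
    have h2 : 1 * 1 ∣ N * q := by rw [one_mul]; exact one_dvd _
    have e1 : Fermat.Agent.H23.jBarD (N * q) (q ^ (a + 1)) hdiv
        = Fermat.Agent.H23.jBarD (N * q) (1 * q ^ (a + 1)) h1 := by
      apply Subtype.ext
      change coeffEmb Qb (qExpand ℚ (q ^ (a + 1)) jq) = coeffEmb Qb (qExpand ℚ (1 * q ^ (a + 1)) jq)
      congr 1
      exact qExpand_congr (one_mul _).symm jq
    rw [e1, hW 1 (q ^ (a + 1)) 1 i1 i2 (one_dvd _) (mul_one _) h1 h2]
    change coeffEmb Qb (qExpand ℚ (1 * 1) jq) = coeffEmb Qb jq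
    congr 1
    rw [qExpand_congr (one_mul 1) jq, qExpand_one_apply]
  -- the image of `α(F_N)` lies in `ℚ̄((t^q))`
  let ψ : ↥(modularFunctionFieldBar N) →+* LaurentSeries Qb :=
    ((modularFunctionFieldBar (N * q)).val.toRingHom.comp W.toAlgHom.toRingHom).comp
      (heckeAlphaBar Qb N q).toRingHom
  have hψ : ∀ x, ψ x = ((W (heckeAlphaBar Qb N q x) : ↥(modularFunctionFieldBar (N * q))) :
      LaurentSeries Qb) := fun _ => rfl
  have hc : ∀ c : Qb, ψ (algebraMap Qb ↥(modularFunctionFieldBar N) c)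
      = algebraMap Qb (LaurentSeries Qb) c := by
    intro c
    rw [hψ, AlgHom.commutes, AlgEquiv.commutes]
    rfl
  have hg : ∀ (d : ℕ) (_ : NeZero d) (hd : d ∣ N),
      ∃ s : LaurentSeries Qb, qExpand Qb q s = ψ (Fermat.Agent.H23.jBarD N d hd) := by
    intro d' hd'0 hd'
    have hd'' : d' ∣ N₀ * q ^ a := hN ▸ hd'
    obtain ⟨d, d₁, e, e'', hd1, he1, hde⟩ := Fermat.Agent.H41.exists_dvd_decomp hcopa hd''
    have hd0 : d ≠ 0 := by
      rintro rfl
      exact hN0 (by rw [hd1, zero_mul])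
    have hqa0 : q ^ a ≠ 0 := pow_ne_zero _ hq0
    have he0 : e ≠ 0 := by
      rintro rfl
      exact hqa0 (by rw [he1, zero_mul])
    have he''0 : e'' ≠ 0 := by
      rintro rfl
      exact hqa0 (by rw [he1, mul_zero])
    haveI i1 : NeZero (d * e) := ⟨mul_ne_zero hd0 he0⟩
    haveI i2 : NeZero (d * (e'' * q)) := ⟨mul_ne_zero hd0 (mul_ne_zero he''0 hq0)⟩
    haveI i3 : NeZero (d * e'') := ⟨mul_ne_zero hd0 he''0⟩
    haveI i4 : NeZero (d * e'' * q) := ⟨mul_ne_zero (mul_ne_zero hd0 he''0) hq0⟩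
    have hee : e * (e'' * q) = q ^ (a + 1) := by rw [← mul_assoc, ← he1, pow_succ]
    have hdN₀ : d ∣ N₀ := ⟨d₁, hd1⟩
    have h1 : d * e ∣ N * q := by
      rw [← hde]
      exact hd'.mul_right q
    have h2 : d * (e'' * q) ∣ N * q := by
      rw [hM, ← hee]
      exact Nat.mul_dvd_mul hdN₀ (dvd_mul_left _ _)
    have e1 : heckeAlphaBar Qb N q (Fermat.Agent.H23.jBarD N d' hd')
        = Fermat.Agent.H23.jBarD (N * q) (d * e) h1 := by
      apply Subtype.ext
      rw [coe_heckeAlphaBar]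
      change coeffEmb Qb (qExpand ℚ d' jq) = coeffEmb Qb (qExpand ℚ (d * e) jq)
      congr 1
      exact qExpand_congr hde jq
    refine ⟨coeffEmb Qb (qExpand ℚ (d * e'') jq), ?_⟩
    rw [hψ, e1, hW d e (e'' * q) i1 i2 hdN₀ hee h1 h2,
      Fermat.Agent.H41.qExpand_coeffEmb_jq Qb (d * e'') q]
    change coeffEmb Qb (qExpand ℚ (d * e'' * q) jq) = coeffEmb Qb (qExpand ℚ (d * (e'' * q)) jq)
    congr 1
    exact qExpand_congr (mul_assoc d e'' q) jq
  have hrange := nlv_range_of_gens N q ψ hc hg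
  choose s hs using hrange
  -- apply `W` to the relation
  have h1 : ∑ i : Fin q, qExpand Qb q (s (c i)) * (coeffEmb Qb jq) ^ (i : ℕ) = 0 := by
    let Ψ : ↥(modularFunctionFieldBar (N * q)) →+* LaurentSeries Qb :=
      (modularFunctionFieldBar (N * q)).val.toRingHom.comp W.toAlgHom.toRingHom
    have h2 := congrArg Ψ h
    rw [map_sum, map_zero] at h2
    rw [← h2]
    refine Finset.sum_congr rfl fun i _ => ?_
    rw [map_mul, map_pow, hs]
    have e1 : Ψ (heckeAlphaBar Qb N q (c i)) = ψ (c i) := rfl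
    have e2 : Ψ (Fermat.Agent.H23.jBarD (N * q) (q ^ (a + 1)) hdiv) = coeffEmb Qb jq := hWe
    rw [e1, e2]
  have h3 := nlv_series_indep q hq (coeffEmb Qb jq) nlv_coeff_j (fun i => s (c i)) h1
  intro i
  have h4 : ψ (c i) = 0 := by rw [← hs, h3 i, map_zero]
  exact (map_eq_zero ψ).1 h4

end Alpha

section Beta

variable (N q : ℕ) [NeZero N] [NeZero q]

/-- **Independence of powers over `β(F_N)`**: the powers `j^i`, `i < q`, are independent over
`β(F_N)` in `F_{N q}`. -/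
theorem nlv_beta_indep (hq : q.Prime)
    (c : Fin q → ↥(modularFunctionFieldBar N))
    (h : ∑ i : Fin q, heckeBetaBar Qb N q (c i)
      * (Fermat.Agent.H23.jBar (N * q)) ^ (i : ℕ) = 0) :
    ∀ i, c i = 0 := by
  have h1 : ∑ i : Fin q, qExpand Qb q ((c i : ↥(modularFunctionFieldBar N)) : LaurentSeries Qb)
      * (coeffEmb Qb jq) ^ (i : ℕ) = 0 := by
    have h2 := congrArg (modularFunctionFieldBar (N * q)).val.toRingHom h
    rw [map_sum, map_zero] at h2
    rw [← h2]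
    refine Finset.sum_congr rfl fun i _ => ?_
    rw [map_mul, map_pow]
    rfl
  have h3 := nlv_series_indep q hq (coeffEmb Qb jq) nlv_coeff_j
    (fun i => ((c i : ↥(modularFunctionFieldBar N)) : LaurentSeries Qb)) h1
  intro i
  exact Subtype.ext (h3 i)

end Beta

end Fermat.Agent.H84.SS2

end
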