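import Fermat.Agent.H1.SS2.DegAlpha
import Fermat.Agent.H65.QES.NormSeries
import Fermat.Agent.H41.AtkinLehnerBar
import Fermat.Agent.H9.ESD.LevelChangeFinal

/-!
# P-SS2 row 1057 (SS2-J7a), degrees over `ℚ̄` (helper84)

* `nlv_finrankAlong_alpha` : `deg α_{L,q} = q` or `q + 1` (`q` prime, any `L`);
* `nlv_finrankAlong_beta`  : `deg β_{L,q} = deg α_{L,q}` (any `L`, `q`).

The second statement: the square `β_{L,q} ∘ (F_1 ⊆ F_L) = (F_q ⊆ F_{L q}) ∘ β_{1,q}` commutes,
degrees are multiplicative in towers and `deg β_{1,q} = deg α_{1,q}` by the Atkin–Lehner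
automorphism of level `q`.
-/

set_option autoImplicit false
set_option linter.style.haveILetI false
set_option synthInstance.maxHeartbeats 400000

noncomputable section

namespace Fermat.Agent.H84.SS2

open AlgebraicCurve ModularCurve IntermediateField

local notation "Qb" => AlgebraicClosure ℚ

/-- The degree along a composition is the product of the degrees. -/
theorem nlv_finrankAlong_comp {K F F' F'' : Type*} [Field K] [Field F] [Field F'] [Field F'']
    [Algebra K F] [Algebra K F'] [Algebra K F''] (φ : F →ₐ[K] F') (ψ : F' →ₐ[K] F'') :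
    finrankAlong K (ψ.comp φ) = finrankAlong K φ * finrankAlong K ψ := by
  unfold finrankAlong
  letI i1 : Algebra F F' := algebraAlong φ
  letI i2 : Algebra F' F'' := algebraAlong ψ
  letI i3 : Algebra F F'' := algebraAlong (ψ.comp φ)
  haveI : IsScalarTower F F' F'' := IsScalarTower.of_algebraMap_eq fun _ => rfl
  exact (Module.finrank_mul_finrank F F' F'').symm

/-- `deg α_{L,q} ∈ {q, q + 1}`. -/
theorem nlv_finrankAlong_alpha (L q : ℕ) [NeZero L] [NeZero q] (hq : q.Prime) :
    finrankAlong Qb (heckeAlphaBar Qb L q) = q ∨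
      finrankAlong Qb (heckeAlphaBar Qb L q) = q + 1 := by
  by_cases h : q ∣ L
  · exact Or.inl (Fermat.Agent.H1.SS2.finrankAlong_heckeAlphaBar_of_dvd L q hq h)
  · exact Or.inr (Fermat.Agent.H65.qes_finrankAlong_heckeAlphaBar L q hq h)

/-- `deg α_{L r,q} = deg α_{L,q}` for primes `q ≠ r`. -/
theorem nlv_finrankAlong_alpha_level (L q r : ℕ) [NeZero L] [NeZero q] [NeZero r]
    [NeZero (L * r)] (hq : q.Prime) (hr : r.Prime) (hqr : q ≠ r) :
    finrankAlong Qb (heckeAlphaBar Qb (L * r) q) = finrankAlong Qb (heckeAlphaBar Qb L q) := by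
  by_cases h : q ∣ L
  · rw [Fermat.Agent.H1.SS2.finrankAlong_heckeAlphaBar_of_dvd L q hq h,
      Fermat.Agent.H1.SS2.finrankAlong_heckeAlphaBar_of_dvd (L * r) q hq (h.mul_right r)]
  · have h' : ¬ q ∣ L * r := by
      intro hd
      rcases (Nat.Prime.dvd_mul hq).1 hd with h1 | h1
      · exact h h1
      · exact hqr ((Nat.prime_dvd_prime_iff_eq hq hr).1 h1)
    rw [Fermat.Agent.H65.qes_finrankAlong_heckeAlphaBar L q hq h,
      Fermat.Agent.H65.qes_finrankAlong_heckeAlphaBar (L * r) q hq h']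

/-- The degree of `β` at level `1` is the degree of `α` (Atkin–Lehner). -/
theorem nlv_finrankAlong_beta_one (q : ℕ) [NeZero q] :
    finrankAlong Qb (heckeBetaBar Qb 1 q) = finrankAlong Qb (heckeAlphaBar Qb 1 q) := by
  obtain ⟨W, hWα, -⟩ := Fermat.Agent.H41.exists_atkinLehnerBar 1 q (Nat.coprime_one_left q)
  unfold finrankAlong
  symm
  exact @Algebra.finrank_eq_of_equiv_equiv _ _ _ _ (algebraAlong (heckeAlphaBar Qb 1 q))
    _ _ _ _ (algebraAlong (heckeBetaBar Qb 1 q)) (RingEquiv.refl _) W.toRingEquiv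
    (RingHom.ext fun x => (hWα x).symm)

/-- The inclusions of function fields have nonzero degree. -/
theorem nlv_relfinrank_ne_zero {N N' : ℕ} [NeZero N] [NeZero N'] (h : N ∣ N') :
    IntermediateField.relfinrank (modularFunctionFieldBar N) (modularFunctionFieldBar N') ≠ 0 := by
  have hle := Fermat.Agent.H9.ESD.lc_bar_le h
  haveI : FiniteDimensional
      Qb⟮IntermediateField.inclusion hle (Fermat.Agent.H23.jBar N)⟯
      ↥(modularFunctionFieldBar N') := (Fermat.Agent.H69.DegC.finrank_bar_eq N').1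
  have h1 := Fermat.Agent.H9.ESD.lc_finrankAlong_inclusion_ne_zero hle (Fermat.Agent.H23.jBar N)
  rwa [Fermat.Agent.H65.finrankAlong_inclusion_eq_relfinrank] at h1

/-- **`deg β_{L,q} = deg α_{L,q}`** over `ℚ̄`, for every level `L` and every `q`. -/
theorem nlv_finrankAlong_beta (L q : ℕ) [NeZero L] [NeZero q] :
    finrankAlong Qb (heckeBetaBar Qb L q) = finrankAlong Qb (heckeAlphaBar Qb L q) := by
  haveI : NeZero (L * q) := ⟨Nat.mul_ne_zero (NeZero.ne L) (NeZero.ne q)⟩
  haveI : NeZero (1 * q) := ⟨by rw [one_mul]; exact NeZero.ne q⟩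
  have h1L : modularFunctionFieldBar 1 ≤ modularFunctionFieldBar L :=
    Fermat.Agent.H9.ESD.lc_bar_le (one_dvd L)
  have hqLq : modularFunctionFieldBar (1 * q) ≤ modularFunctionFieldBar (L * q) :=
    Fermat.Agent.H9.ESD.lc_bar_le (Nat.mul_dvd_mul_right (one_dvd L) q)
  have h1q : modularFunctionFieldBar 1 ≤ modularFunctionFieldBar (1 * q) :=
    Fermat.Agent.H9.ESD.lc_bar_le (dvd_mul_right 1 q)
  have hLLq : modularFunctionFieldBar L ≤ modularFunctionFieldBar (L * q) :=
    Fermat.Agent.H9.ESD.lc_bar_le (dvd_mul_right L q)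
  -- the commutative square
  have hsq : (heckeBetaBar Qb L q).comp (IntermediateField.inclusion h1L)
      = (IntermediateField.inclusion hqLq).comp (heckeBetaBar Qb 1 q) := by
    apply AlgHom.ext
    intro x
    apply Subtype.ext
    rw [AlgHom.comp_apply, AlgHom.comp_apply, coe_heckeBetaBar,
      IntermediateField.coe_inclusion, IntermediateField.coe_inclusion, coe_heckeBetaBar]
  have e1 := nlv_finrankAlong_comp (IntermediateField.inclusion h1L) (heckeBetaBar Qb L q)
  have e2 := nlv_finrankAlong_comp (heckeBetaBar Qb 1 q) (IntermediateField.inclusion hqLq)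
  rw [hsq, e2, nlv_finrankAlong_beta_one q] at e1
  have hα1 : heckeAlphaBar Qb 1 q = IntermediateField.inclusion h1q := rfl
  have hαL : heckeAlphaBar Qb L q = IntermediateField.inclusion hLLq := rfl
  rw [hα1, Fermat.Agent.H65.finrankAlong_inclusion_eq_relfinrank,
    Fermat.Agent.H65.finrankAlong_inclusion_eq_relfinrank,
    Fermat.Agent.H65.finrankAlong_inclusion_eq_relfinrank,
    IntermediateField.relfinrank_mul_relfinrank h1q hqLq,
    ← IntermediateField.relfinrank_mul_relfinrank h1L hLLq] at e1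
  rw [hαL, Fermat.Agent.H65.finrankAlong_inclusion_eq_relfinrank]
  exact (Nat.eq_of_mul_eq_mul_left
    (Nat.pos_of_ne_zero (nlv_relfinrank_ne_zero (one_dvd L))) e1).symm

end Fermat.Agent.H84.SS2

end
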