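import Fermat.Agent.H84.SS2.NormLevelAbs
import Fermat.Agent.H84.SS2.DegBar
import Fermat.Agent.H84.SS2.AlphaIndep
import Fermat.Agent.H52.SS.JInterfaces

/-!
# P-SS2 row 1057 (SS2-J7a NORM-BC), helper84

`normBaseChange : Fermat.Agent.H52.SS.NormBaseChangeStatement` (unconditional): for primes
`q ≠ r`, every level `L` and `f ∈ F_{L q}`,
`N_{α_q, level L r}(f) = α_r (N_{α_q, level L}(f))` and the same for `β_q`.

Proof.  The squares `F_L → F_{L q}`, `F_L → F_{L r}`, `F_{L r} → F_{L r q}` commute, the degrees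
agree (`DegBar`), and `F_{L r q}` contains `q` powers of an element of `F_{L q}` which are
independent over `F_{L r}` (`AlphaIndep`).  Since the degree is `q` or `q + 1`, the image of an
`F_L`-basis of `F_{L q}` is an `F_{L r}`-basis of `F_{L r q}` (`NormLevelAbs`).
-/

set_option autoImplicit false
set_option linter.style.haveILetI false
set_option synthInstance.maxHeartbeats 400000

noncomputable section

namespace Fermat.Agent.H84.SS2

open AlgebraicCurve ModularCurve IntermediateField

local notation "Qb" => AlgebraicClosure ℚ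

/-- Linear independence of powers over the source of a ring homomorphism, in elementary
terms. -/
theorem nlv_linearIndependent_of {F E : Type*} [Field F] [Field E] (φ : F →+* E) (n : ℕ) (e : E)
    (h : ∀ c : Fin n → F, ∑ i : Fin n, φ (c i) * e ^ (i : ℕ) = 0 → ∀ i, c i = 0) :
    @LinearIndependent (Fin n) F E (fun i : Fin n => e ^ (i : ℕ)) _ _
      (@Algebra.toModule F E _ _ φ.toAlgebra) := by
  letI : Algebra F E := φ.toAlgebra
  rw [Fintype.linearIndependent_iff]
  intro c hc
  apply h c
  rw [← hc]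
  refine Finset.sum_congr rfl fun i _ => ?_
  rw [Algebra.smul_def]
  rfl

/-- **(J7a) NORM-BC, `α`**. -/
theorem normBaseChange_alpha (L q r : ℕ) [NeZero L] [NeZero q] [NeZero r] (hq : q.Prime)
    (hr : r.Prime) (hqr : q ≠ r) (f : modularFunctionFieldBar (L * q)) :
    Fermat.Agent.H11.SS2.ss2NormAlong (heckeAlphaBar Qb (L * r) q)
        (Fermat.Agent.H52.SS.lvlMap L q r f)
      = heckeAlphaBar Qb L r
        (Fermat.Agent.H11.SS2.ss2NormAlong (heckeAlphaBar Qb L q) f) := by
  obtain ⟨a, L₀, hL₀, hL⟩ := Nat.exists_eq_pow_mul_and_not_dvd (NeZero.ne L) q hq.ne_one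
  have hN : L * r = (L₀ * r) * q ^ a := by rw [hL]; ring
  have hN₀ : ¬ q ∣ L₀ * r := by
    intro hd
    rcases (Nat.Prime.dvd_mul hq).1 hd with h1 | h1
    · exact hL₀ h1
    · exact hqr ((Nat.prime_dvd_prime_iff_eq hq hr).1 h1)
  have hdivE : q ^ (a + 1) ∣ L * q := by
    rw [hL, pow_succ]
    exact Nat.mul_dvd_mul (dvd_mul_right _ _) (dvd_refl q)
  have hdiv' : q ^ (a + 1) ∣ L * r * q := by
    rw [hL, pow_succ]
    exact Nat.mul_dvd_mul ((dvd_mul_right _ _).mul_right r) (dvd_refl q)
  letI iE : Algebra ↥(modularFunctionFieldBar L) ↥(modularFunctionFieldBar (L * q)) :=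
    (heckeAlphaBar Qb L q).toRingHom.toAlgebra
  letI iEb : Algebra ↥(modularFunctionFieldBar (L * r)) ↥(modularFunctionFieldBar (L * r * q)) :=
    (heckeAlphaBar Qb (L * r) q).toRingHom.toAlgebra
  have hκ : ∀ x : ↥(modularFunctionFieldBar L),
      (Fermat.Agent.H52.SS.lvlMap L q r).toRingHom
        (algebraMap ↥(modularFunctionFieldBar L) ↥(modularFunctionFieldBar (L * q)) x)
      = algebraMap ↥(modularFunctionFieldBar (L * r)) ↥(modularFunctionFieldBar (L * r * q))
        ((heckeAlphaBar Qb L r).toRingHom x) := by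
    intro x
    apply Subtype.ext
    change ((Fermat.Agent.H52.SS.lvlMap L q r (heckeAlphaBar Qb L q x) :
        ↥(modularFunctionFieldBar (L * r * q))) : LaurentSeries Qb)
      = ((heckeAlphaBar Qb (L * r) q (heckeAlphaBar Qb L r x) :
        ↥(modularFunctionFieldBar (L * r * q))) : LaurentSeries Qb)
    rw [Fermat.Agent.H52.SS.coe_lvlMap, coe_heckeAlphaBar, coe_heckeAlphaBar, coe_heckeAlphaBar]
  have hn : Module.finrank ↥(modularFunctionFieldBar L) ↥(modularFunctionFieldBar (L * q)) = q ∨
      Module.finrank ↥(modularFunctionFieldBar L) ↥(modularFunctionFieldBar (L * q)) = q + 1 :=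
    nlv_finrankAlong_alpha L q hq
  have hdeg : Module.finrank ↥(modularFunctionFieldBar (L * r))
        ↥(modularFunctionFieldBar (L * r * q))
      = Module.finrank ↥(modularFunctionFieldBar L) ↥(modularFunctionFieldBar (L * q)) :=
    nlv_finrankAlong_alpha_level L q r hq hr hqr
  have he : (Fermat.Agent.H52.SS.lvlMap L q r).toRingHom
      (Fermat.Agent.H23.jBarD (L * q) (q ^ (a + 1)) hdivE)
      = Fermat.Agent.H23.jBarD (L * r * q) (q ^ (a + 1)) hdiv' := by
    apply Subtype.ext
    exact Fermat.Agent.H52.SS.coe_lvlMap L q r _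
  have hLI : LinearIndependent ↥(modularFunctionFieldBar (L * r))
      (fun i : Fin q => (Fermat.Agent.H52.SS.lvlMap L q r).toRingHom
        (Fermat.Agent.H23.jBarD (L * q) (q ^ (a + 1)) hdivE) ^ (i : ℕ)) := by
    rw [he]
    exact nlv_linearIndependent_of (heckeAlphaBar Qb (L * r) q).toRingHom q _
      (nlv_alpha_indep (L * r) q hq (L₀ * r) a hN hN₀ hdiv')
  exact nl_norm_of_finrank (heckeAlphaBar Qb L r).toRingHom
    (Fermat.Agent.H52.SS.lvlMap L q r).toRingHom hκ q hq.two_le hn hdeg
    (Fermat.Agent.H23.jBarD (L * q) (q ^ (a + 1)) hdivE) hLI f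

/-- **(J7a) NORM-BC, `β`**. -/
theorem normBaseChange_beta (L q r : ℕ) [NeZero L] [NeZero q] [NeZero r] (hq : q.Prime)
    (hr : r.Prime) (hqr : q ≠ r) (f : modularFunctionFieldBar (L * q)) :
    Fermat.Agent.H11.SS2.ss2NormAlong (heckeBetaBar Qb (L * r) q)
        (Fermat.Agent.H52.SS.lvlMap L q r f)
      = heckeAlphaBar Qb L r
        (Fermat.Agent.H11.SS2.ss2NormAlong (heckeBetaBar Qb L q) f) := by
  letI iE : Algebra ↥(modularFunctionFieldBar L) ↥(modularFunctionFieldBar (L * q)) :=
    (heckeBetaBar Qb L q).toRingHom.toAlgebra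
  letI iEb : Algebra ↥(modularFunctionFieldBar (L * r)) ↥(modularFunctionFieldBar (L * r * q)) :=
    (heckeBetaBar Qb (L * r) q).toRingHom.toAlgebra
  have hκ : ∀ x : ↥(modularFunctionFieldBar L),
      (Fermat.Agent.H52.SS.lvlMap L q r).toRingHom
        (algebraMap ↥(modularFunctionFieldBar L) ↥(modularFunctionFieldBar (L * q)) x)
      = algebraMap ↥(modularFunctionFieldBar (L * r)) ↥(modularFunctionFieldBar (L * r * q))
        ((heckeAlphaBar Qb L r).toRingHom x) := by
    intro x
    apply Subtype.ext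
    change ((Fermat.Agent.H52.SS.lvlMap L q r (heckeBetaBar Qb L q x) :
        ↥(modularFunctionFieldBar (L * r * q))) : LaurentSeries Qb)
      = ((heckeBetaBar Qb (L * r) q (heckeAlphaBar Qb L r x) :
        ↥(modularFunctionFieldBar (L * r * q))) : LaurentSeries Qb)
    rw [Fermat.Agent.H52.SS.coe_lvlMap, coe_heckeBetaBar, coe_heckeBetaBar, coe_heckeAlphaBar]
  have hn : Module.finrank ↥(modularFunctionFieldBar L) ↥(modularFunctionFieldBar (L * q)) = q ∨
      Module.finrank ↥(modularFunctionFieldBar L) ↥(modularFunctionFieldBar (L * q)) = q + 1 := by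
    have h1 := nlv_finrankAlong_alpha L q hq
    rw [← nlv_finrankAlong_beta L q] at h1
    exact h1
  have hdeg : Module.finrank ↥(modularFunctionFieldBar (L * r))
        ↥(modularFunctionFieldBar (L * r * q))
      = Module.finrank ↥(modularFunctionFieldBar L) ↥(modularFunctionFieldBar (L * q)) := by
    have h1 := nlv_finrankAlong_alpha_level L q r hq hr hqr
    rw [← nlv_finrankAlong_beta L q, ← nlv_finrankAlong_beta (L * r) q] at h1
    exact h1
  have he : (Fermat.Agent.H52.SS.lvlMap L q r).toRingHom (Fermat.Agent.H23.jBar (L * q))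
      = Fermat.Agent.H23.jBar (L * r * q) := by
    apply Subtype.ext
    exact Fermat.Agent.H52.SS.coe_lvlMap L q r _
  have hLI : LinearIndependent ↥(modularFunctionFieldBar (L * r))
      (fun i : Fin q => (Fermat.Agent.H52.SS.lvlMap L q r).toRingHom
        (Fermat.Agent.H23.jBar (L * q)) ^ (i : ℕ)) := by
    rw [he]
    exact nlv_linearIndependent_of (heckeBetaBar Qb (L * r) q).toRingHom q _
      (nlv_beta_indep (L * r) q hq)
  exact nl_norm_of_finrank (heckeAlphaBar Qb L r).toRingHom
    (Fermat.Agent.H52.SS.lvlMap L q r).toRingHom hκ q hq.two_le hn hdeg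
    (Fermat.Agent.H23.jBar (L * q)) hLI f

/-- **(J7a) NORM-BC** (row 1057), unconditional. -/
theorem normBaseChange : Fermat.Agent.H52.SS.NormBaseChangeStatement := by
  intro L q r _ _ _ hq hr hqr f
  exact ⟨normBaseChange_alpha L q r hq hr hqr f, normBaseChange_beta L q r hq hr hqr f⟩

end Fermat.Agent.H84.SS2

end
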