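import Mathlib

/-!
# P-SS2 row 1057 (SS2-J7a), abstract part (helper84): base change of norms from degrees

For a commutative square of fields

```
F  ----> E
|κF      |κE
Fb ----> Eb
```

with `[Eb : Fb] = [E : F] = n`, `n = q` or `n = q + 1` (`q ≥ 2`), and an element `e₀ ∈ E` such that
`1, κE e₀, …, (κE e₀)^(q-1)` are linearly independent over `Fb`, the image of an `F`-basis of `E`
is an `Fb`-basis of `Eb`; hence the norms of `E / F` and `Eb / Fb` correspond.  Mathlib only.
-/

set_option autoImplicit false
set_option linter.style.haveILetI false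

noncomputable section

namespace Fermat.Agent.H84.SS2

open Module

section Abs

variable {F E Fb Eb : Type*} [Field F] [Field E] [Field Fb] [Field Eb]
  [Algebra F E] [Algebra Fb Eb]
variable (κF : F →+* Fb) (κE : E →+* Eb)

/-- Norms agree when a basis is mapped to a basis. -/
theorem nl_norm_of_basis (hκ : ∀ f : F, κE (algebraMap F E f) = algebraMap Fb Eb (κF f))
    {ι : Type*} [Fintype ι] [DecidableEq ι] (b : Basis ι F E) (b' : Basis ι Fb Eb)
    (hb : ∀ i, b' i = κE (b i)) (u : E) :
    Algebra.norm Fb (κE u) = κF (Algebra.norm F u) := by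
  rw [Algebra.norm_eq_matrix_det b', Algebra.norm_eq_matrix_det b, RingHom.map_det]
  congr 1
  ext i j
  rw [Algebra.leftMulMatrix_eq_repr_mul, RingHom.mapMatrix_apply, Matrix.map_apply,
    Algebra.leftMulMatrix_eq_repr_mul]
  have key : κE u * b' j = ∑ k, (κF (b.repr (u * b j) k)) • b' k := by
    rw [hb, ← map_mul]
    conv_lhs => rw [← b.sum_repr (u * b j)]
    rw [map_sum]
    refine Finset.sum_congr rfl fun k _ => ?_
    rw [hb, Algebra.smul_def, map_mul, Algebra.smul_def, hκ]
  rw [key, b'.repr_sum_self]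

/-- The image of `E` lies in the `Fb`-span of the image of a basis. -/
theorem nl_map_mem_span (hκ : ∀ f : F, κE (algebraMap F E f) = algebraMap Fb Eb (κF f))
    {ι : Type*} [Fintype ι] (b : Basis ι F E) (e : E) :
    κE e ∈ Submodule.span Fb (Set.range fun i => κE (b i)) := by
  rw [← b.sum_repr e, map_sum]
  refine Submodule.sum_mem _ fun i _ => ?_
  rw [Algebra.smul_def, map_mul, hκ, ← Algebra.smul_def]
  exact Submodule.smul_mem _ _ (Submodule.subset_span ⟨i, rfl⟩)

/-- A divisor `d` of `n ∈ {q, q + 1}` with `q ≤ d` is `n` (`q ≥ 2`). -/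
theorem nl_eq_of_dvd {q n d : ℕ} (hq : 2 ≤ q) (hn : n = q ∨ n = q + 1) (hd : d ∣ n)
    (hqd : q ≤ d) : d = n := by
  have hn0 : 0 < n := by rcases hn with h | h <;> omega
  have hdn : d ≤ n := Nat.le_of_dvd hn0 hd
  rcases hn with h | h
  · omega
  · subst h
    rcases Nat.lt_or_ge d (q + 1) with h1 | h1
    · exfalso
      have hdq : d = q := by omega
      subst hdq
      have h2 : d ∣ 1 := (Nat.dvd_add_right (dvd_refl d)).mp hd
      have h3 : d = 1 := Nat.dvd_one.mp h2
      omega
    · omega

/-- **The image of a basis is a basis**, from the degrees and `q` independent powers. -/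
theorem nl_span_eq_top (hκ : ∀ f : F, κE (algebraMap F E f) = algebraMap Fb Eb (κF f))
    (q : ℕ) (hq : 2 ≤ q)
    (hn : finrank F E = q ∨ finrank F E = q + 1)
    (hdeg : finrank Fb Eb = finrank F E)
    (e₀ : E) (hLI : LinearIndependent Fb (fun i : Fin q => κE e₀ ^ (i : ℕ)))
    {ι : Type*} [Fintype ι] (b : Basis ι F E) :
    ⊤ ≤ Submodule.span Fb (Set.range fun i => κE (b i)) := by
  classical
  have hnpos : 0 < finrank F E := by rcases hn with h | h <;> omega
  haveI hfinE : Module.Finite F E := Module.finite_of_finrank_pos hnpos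
  haveI hfinEb : Module.Finite Fb Eb := Module.finite_of_finrank_pos (by rw [hdeg]; exact hnpos)
  set S : Submodule Fb Eb := Submodule.span Fb (Set.range fun i => κE (b i)) with hS
  have h1 : ∀ e : E, κE e ∈ S := nl_map_mem_span κF κE hκ b
  have hone : (1 : Eb) ∈ S := by
    have := h1 1
    rwa [map_one] at this
  have hmul : ∀ x y : Eb, x ∈ S → y ∈ S → x * y ∈ S := by
    intro x y hx hy
    have hle : S * S ≤ S := by
      rw [hS, Submodule.span_mul_span, Submodule.span_le]
      rintro _ ⟨_, ⟨i, rfl⟩, _, ⟨j, rfl⟩, rfl⟩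
      have := h1 (b i * b j)
      rwa [map_mul] at this
    exact hle (Submodule.mul_mem_mul hx hy)
  let A : Subalgebra Fb Eb := Submodule.toSubalgebra S hone hmul
  have hinv : ∀ x ∈ A, x⁻¹ ∈ A := by
    intro x hx
    have h2 : IsIntegral Fb x := IsIntegral.of_finite Fb x
    exact A.inv_mem_of_algebraic (x := ⟨x, hx⟩) h2.isAlgebraic
  let T : IntermediateField Fb Eb := Subalgebra.toIntermediateField A hinv
  have hTS : ∀ x, x ∈ T ↔ x ∈ S := fun x => Iff.rfl
  -- the `q` independent powers lie in `T`
  have hmemT : ∀ i : Fin q, κE e₀ ^ (i : ℕ) ∈ T := fun i => by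
    rw [hTS, ← map_pow]
    exact h1 _
  have hLIT : LinearIndependent Fb (fun i : Fin q => (⟨κE e₀ ^ (i : ℕ), hmemT i⟩ : T)) := by
    refine LinearIndependent.of_comp (T.val.toLinearMap) ?_
    exact hLI
  have hqT : q ≤ finrank Fb T := by
    have := hLIT.fintype_card_le_finrank
    rwa [Fintype.card_fin] at this
  have htower : finrank Fb T * finrank T Eb = finrank Fb Eb := Module.finrank_mul_finrank Fb T Eb
  have hdvd : finrank Fb T ∣ finrank F E := by
    rw [← hdeg, ← htower]
    exact dvd_mul_right _ _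
  have hTn : finrank Fb T = finrank F E := nl_eq_of_dvd hq hn hdvd hqT
  have hTtop : T = ⊤ := by
    apply IntermediateField.eq_of_le_of_finrank_eq le_top
    rw [IntermediateField.finrank_top', hTn, hdeg]
  intro x _
  have hx : x ∈ T := by rw [hTtop]; exact IntermediateField.mem_top
  exact (hTS x).1 hx

/-- **Base change of norms** from the degrees and `q` independent powers. -/
theorem nl_norm_of_finrank (hκ : ∀ f : F, κE (algebraMap F E f) = algebraMap Fb Eb (κF f))
    (q : ℕ) (hq : 2 ≤ q)
    (hn : finrank F E = q ∨ finrank F E = q + 1)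
    (hdeg : finrank Fb Eb = finrank F E)
    (e₀ : E) (hLI : LinearIndependent Fb (fun i : Fin q => κE e₀ ^ (i : ℕ)))
    (u : E) : Algebra.norm Fb (κE u) = κF (Algebra.norm F u) := by
  classical
  have hnpos : 0 < finrank F E := by rcases hn with h | h <;> omega
  haveI hfinE : Module.Finite F E := Module.finite_of_finrank_pos hnpos
  haveI hfinEb : Module.Finite Fb Eb := Module.finite_of_finrank_pos (by rw [hdeg]; exact hnpos)
  let b : Basis (Fin (finrank F E)) F E := Module.finBasis F E
  have hspan := nl_span_eq_top κF κE hκ q hq hn hdeg e₀ hLI b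
  have hcard : Fintype.card (Fin (finrank F E)) = finrank Fb Eb := by
    rw [Fintype.card_fin, hdeg]
  let b' : Basis (Fin (finrank F E)) Fb Eb :=
    basisOfTopLeSpanOfCardEqFinrank (fun i => κE (b i)) hspan hcard
  exact nl_norm_of_basis κF κE hκ b b'
    (fun i => by simp [b']) u

end Abs

end Fermat.Agent.H84.SS2

end
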